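import Fermat.Agent.S28.DG.Coeff
import Fermat.Agent.S28.Defs
import Fermat.Agent.Lib.AnalyticJ.QExp

/-!
# S28, Part A: basic analytic definitions

* `qN N τ = exp (2πiτ/N)`;
* `HasExp N f a` : the function `f` on `ℍ` is the sum of the Laurent series `a` in `q_N`, everywhere on `ℍ`;
* `jFun = E₄³/Δ`;
* `jM M = j ∘ M`, `uM M = (Δ ∣[12] M) / Δ` for `M ∈ GL₂(ℝ)`;
* `twist ξ a = ∑ a_n ξ^n X^n` is `Fermat.Agent.S28.twist` (a ring hom).
-/

set_option autoImplicit false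
open ModularCurve UpperHalfPlane Complex
open scoped ModularForm MatrixGroups Real
noncomputable section

namespace Fermat.Agent.S28.DG

/-- `q_N(τ) = exp (2πiτ/N)`. -/
def qN (N : ℕ) (τ : ℍ) : ℂ := Function.Periodic.qParam (N : ℝ) (τ : ℂ)

/-- `f` is given on all of `ℍ` by the (absolutely) convergent Laurent series `a` in `q_N`. -/
def HasExp (N : ℕ) (f : ℍ → ℂ) (a : LaurentSeries ℂ) : Prop :=
  ∀ τ : ℍ, HasSum (fun n : ℤ => a.coeff n * qN N τ ^ n) (f τ)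

/-- The same with coefficients in a ring `O` mapping to `ℂ`. -/
def HasExpO (O : Type) [CommRing O] [Algebra O ℂ] (N : ℕ) (f : ℍ → ℂ) (a : LaurentSeries O) : Prop :=
  HasExp N f (coeffMap (algebraMap O ℂ) a)

/-- The analytic `j`-function `E₄³/Δ` (the one of `Fermat.Agent.Lib.AnalyticJ`, which provides
`jFun_smul`, `mdifferentiable_jFun`, `hasSum_jFun`, `discriminant_smul`, ...). -/
abbrev jFun : ℍ → ℂ := Fermat.Agent.Lib.AnalyticJ.jFun

/-- `j ∘ M`. -/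
def jM (M : GL (Fin 2) ℝ) : ℍ → ℂ := fun τ => jFun (M • τ)

/-- `(Δ ∣[12] M) / Δ`, a modular unit. -/
def uM (M : GL (Fin 2) ℝ) : ℍ → ℂ :=
  fun τ => ((ModularForm.discriminant ∣[(12 : ℤ)] M) τ) / ModularForm.discriminant τ

/-- the real matrices coming from integral matrices of positive determinant dividing `N`. -/
def intMat (N : ℕ) : Set (GL (Fin 2) ℝ) :=
  {M | ∃ A : Matrix (Fin 2) (Fin 2) ℤ, 0 < A.det ∧ A.det ∣ (N : ℤ) ∧
    (M : Matrix (Fin 2) (Fin 2) ℝ) = A.map (Int.cast : ℤ → ℝ)}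

-- `twist ξ : LaurentSeries R →+* LaurentSeries R`, `∑ a_n X^n ↦ ∑ a_n ξ^n X^n`, is `Fermat.Agent.S28.twist`
-- (helper28's `Fermat/Agent/S28/Defs.lean`, with simp lemma `twist_coeff`).

/-- `τ ↦ (ατ+β)/δ`. -/
def utMap (α δ : ℕ) (β : ℤ) (hα : 0 < α) (hδ : 0 < δ) (τ : ℍ) : ℍ :=
  ⟨((α : ℂ) * τ + β) / δ, by
    have h1 : (((α : ℂ) * τ + β) / δ).im = (α : ℝ) * τ.im / δ := by
      have : ((α : ℂ) * τ + β) / δ = (((α : ℝ) * (τ : ℂ) + (β : ℝ)) / (δ : ℝ) : ℂ) := by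
        push_cast; ring
      rw [this, Complex.div_ofReal_im]
      simp
    rw [h1]
    have := τ.im_pos
    positivity⟩

end Fermat.Agent.S28.DG
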