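import Fermat.Agent.S28.DG.Analytic.Defs

/-!
# S28, Part A2: the formal Euler product `etaProd = ∏' (1 - X^(n+1)) ∈ ℤ⟦X⟧` (product topology) is the Taylor series
of the analytic product `∏' (1 - x^(n+1))` on the unit disc.

Proof: the partial products are polynomials converging locally uniformly on the unit disc to the analytic
product; by Weierstrass all Taylor coefficients at `0` converge, and the coefficients of the truncated formal
products are eventually equal to those of the formal `tprod`.
-/

set_option autoImplicit false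
open ModularCurve Filter Topology ModularForm
noncomputable section

namespace Fermat.Agent.S28.DG

namespace Eta

/-- Weierstrass: iterated derivatives of a locally uniform limit. -/
theorem tendstoLocallyUniformlyOn_iteratedDeriv {ι : Type*} {φ : Filter ι} {U : Set ℂ}
    (hU : IsOpen U) (m : ℕ) :
    ∀ {F : ι → ℂ → ℂ} {f : ℂ → ℂ}, TendstoLocallyUniformlyOn F f φ U →
      (∀ᶠ n in φ, DifferentiableOn ℂ (F n) U) →
      TendstoLocallyUniformlyOn (fun n => iteratedDeriv m (F n)) (iteratedDeriv m f) φ U := by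
  induction m with
  | zero =>
    intro F f hf _
    simpa [iteratedDeriv_zero] using hf
  | succ m ih =>
    intro F f hf hF
    have h1 := hf.deriv hF hU
    have h2 : ∀ᶠ n in φ, DifferentiableOn ℂ ((deriv ∘ F) n) U := by
      filter_upwards [hF] with n hn
      exact hn.deriv hU
    have := ih h1 h2
    simpa [iteratedDeriv_succ'] using this

theorem iteratedDeriv_polynomial_eval (p : Polynomial ℂ) (m : ℕ) :
    iteratedDeriv m (fun x => p.eval x) = fun x => ((Polynomial.derivative^[m]) p).eval x := by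
  induction m generalizing p with
  | zero => simp
  | succ m ih =>
    rw [iteratedDeriv_succ']
    have : deriv (fun x => p.eval x) = fun x => (Polynomial.derivative p).eval x := by
      funext x; exact p.deriv
    rw [this, ih]
    simp

theorem iteratedDeriv_polynomial_eval_zero (p : Polynomial ℂ) (m : ℕ) :
    iteratedDeriv m (fun x => p.eval x) 0 = (m.factorial : ℂ) * p.coeff m := by
  rw [iteratedDeriv_polynomial_eval]
  simp only
  rw [← Polynomial.coeff_zero_eq_eval_zero, Polynomial.coeff_iterate_derivative]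
  simp [Nat.descFactorial_self]

/-- truncated formal product. -/
def etaPoly (N : ℕ) : Polynomial ℤ :=
  ∏ i ∈ Finset.range N, (1 - Polynomial.X ^ (i + 1))

section formal
open scoped PowerSeries.WithPiTopology

theorem tendsto_coeff_etaPoly (m : ℕ) :
    ∀ᶠ N in atTop, (etaPoly N).coeff m = PowerSeries.coeff m etaProd := by
  have h1 : Tendsto (fun N : ℕ => ∏ i ∈ Finset.range N, ((1 : PowerSeries ℤ) - PowerSeries.X ^ (i + 1)))
      atTop (𝓝 etaProd) :=
    (PowerSeries.WithPiTopology.multipliable_one_sub_X_pow ℤ).hasProd.tendsto_prod_nat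
  have h3 := ((PowerSeries.WithPiTopology.continuous_coeff ℤ m).tendsto _).comp h1
  rw [nhds_discrete, tendsto_pure] at h3
  filter_upwards [h3] with N hN
  have hc : ((∏ i ∈ Finset.range N, (1 - Polynomial.X ^ (i + 1)) : Polynomial ℤ) : PowerSeries ℤ)
      = ∏ i ∈ Finset.range N, ((1 : PowerSeries ℤ) - PowerSeries.X ^ (i + 1)) := by
    rw [← Polynomial.coeToPowerSeries.ringHom_apply, map_prod]
    simp
  rw [← hN, ← Polynomial.coeff_coe]
  simp [etaPoly, hc]

end formal

theorem eval_etaPoly (N : ℕ) (q : ℂ) :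
    ((etaPoly N).map (Int.castRingHom ℂ)).eval q = ∏ i ∈ Finset.range N, (1 - q ^ (i + 1)) := by
  simp [etaPoly, Polynomial.eval_prod, Polynomial.map_prod]

theorem tendstoLocallyUniformlyOn_etaPoly :
    TendstoLocallyUniformlyOn (fun (N : ℕ) (q : ℂ) => ((etaPoly N).map (Int.castRingHom ℂ)).eval q)
      (fun q => ∏' i : ℕ, (1 - q ^ (i + 1))) atTop (Metric.ball (0 : ℂ) 1) := by
  have h0 := multipliableLocallyUniformlyOn_one_sub_pow.hasProdLocallyUniformlyOn
  rw [hasProdLocallyUniformlyOn_iff_tendstoLocallyUniformlyOn] at h0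
  have h1 : TendstoLocallyUniformlyOn
      (fun (N : ℕ) (q : ℂ) => ∏ i ∈ Finset.range N, (1 - q ^ (i + 1)))
      (fun q => ∏' i : ℕ, (1 - q ^ (i + 1))) atTop (Metric.ball (0 : ℂ) 1) := by
    intro u hu x hx
    obtain ⟨t, ht, h⟩ := h0 u hu x hx
    exact ⟨t, ht, tendsto_finset_range.eventually h⟩
  refine h1.congr (G := _) ?_
  intro N q _
  exact (eval_etaPoly N q).symm

theorem iteratedDeriv_tprod_zero (m : ℕ) :
    iteratedDeriv m (fun q : ℂ => ∏' i : ℕ, (1 - q ^ (i + 1))) 0
      = (m.factorial : ℂ) * ((PowerSeries.coeff m etaProd : ℤ) : ℂ) := by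
  have h1 := tendstoLocallyUniformlyOn_iteratedDeriv Metric.isOpen_ball m
    tendstoLocallyUniformlyOn_etaPoly
    (Filter.Eventually.of_forall fun N => (Polynomial.differentiable _).differentiableOn)
  have h2 := h1.tendsto_at (Metric.mem_ball_self one_pos)
  simp only [iteratedDeriv_polynomial_eval_zero, Polynomial.coeff_map] at h2
  have h4 : Tendsto (fun N : ℕ => (m.factorial : ℂ) * (Int.castRingHom ℂ) ((etaPoly N).coeff m)) atTop
      (𝓝 ((m.factorial : ℂ) * (Int.castRingHom ℂ) (PowerSeries.coeff m etaProd))) := by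
    apply tendsto_const_nhds.congr'
    filter_upwards [tendsto_coeff_etaPoly m] with N hN
    rw [hN]
  simpa using tendsto_nhds_unique h2 h4

end Eta

theorem hasSum_etaProd (x : ℂ) (hx : ‖x‖ < 1) :
    HasSum (fun n : ℕ => ((PowerSeries.coeff n etaProd : ℤ) : ℂ) * x ^ n)
      (∏' n : ℕ, (1 - x ^ (n + 1))) := by
  have hd : DifferentiableOn ℂ (fun q : ℂ => ∏' i : ℕ, (1 - q ^ (i + 1))) (Metric.ball (0 : ℂ) 1) :=
    differentiableOn_tprod_one_sub_pow
  have hx' : x ∈ Metric.ball (0 : ℂ) 1 := by simpa using hx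
  have h := Complex.hasSum_taylorSeries_on_ball hd hx'
  have he : (fun n : ℕ => ((PowerSeries.coeff n etaProd : ℤ) : ℂ) * x ^ n) =
      fun n : ℕ => ((n.factorial : ℂ))⁻¹ • (x - 0) ^ n •
        iteratedDeriv n (fun q : ℂ => ∏' i : ℕ, (1 - q ^ (i + 1))) 0 := by
    funext n
    rw [Eta.iteratedDeriv_tprod_zero]
    have : (n.factorial : ℂ) ≠ 0 := by exact_mod_cast n.factorial_ne_zero
    simp only [sub_zero, smul_eq_mul]
    field_simp
  rw [he]
  exact h

end Fermat.Agent.S28.DG
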