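import Fermat.Agent.S28.DG.Analytic.Defs

/-!
# S28, Part A1: API for `HasExp`
Everything is absolutely summable (`ℂ` is finite dimensional).
* `mul`: regroup `ℤ × ℤ` along `(s,m) ↦ (m, s-m)`, each fibre is a finite sum identified with
  `HahnSeries.coeff_mul`.
* `unique`, `mdifferentiable`, `tendsto`: shift to a power series in `q_N`, which converges on the
  whole unit disc.
-/

set_option autoImplicit false
set_option linter.unusedSectionVars false
open ModularCurve UpperHalfPlane Complex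
open scoped ModularForm MatrixGroups Real Manifold
noncomputable section

namespace Fermat.Agent.S28.DG

variable {N : ℕ} [NeZero N] {f g : ℍ → ℂ} {a b : LaurentSeries ℂ}

theorem qN_ne_zero (τ : ℍ) : qN N τ ≠ 0 := Function.Periodic.qParam_ne_zero _

theorem norm_qN_lt_one (τ : ℍ) : ‖qN N τ‖ < 1 :=
  Function.Periodic.norm_qParam_lt_one (by exact_mod_cast NeZero.pos N) τ.im_pos

theorem qN_pow_eq (τ : ℍ) : qN N τ ^ N = qN 1 τ := by
  simp only [qN, Function.Periodic.qParam]
  rw [← Complex.exp_nat_mul]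
  congr 1
  have : (N : ℂ) ≠ 0 := by exact_mod_cast NeZero.ne N
  push_cast
  field_simp

theorem hasExp_const (c : ℂ) : HasExp N (fun _ => c) (HahnSeries.C c) := by
  intro τ
  have := hasSum_single (f := fun n : ℤ => (HahnSeries.C c).coeff n * qN N τ ^ n) 0 (by
    intro n hn
    simp [HahnSeries.C_apply, HahnSeries.coeff_single_of_ne hn])
  simpa using this

theorem HasExp.add (hf : HasExp N f a) (hg : HasExp N g b) : HasExp N (f + g) (a + b) := by
  intro τ
  simpa [add_mul] using (hf τ).add (hg τ)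

theorem HasExp.neg (hf : HasExp N f a) : HasExp N (-f) (-a) := by
  intro τ
  simpa using (hf τ).neg

theorem HasExp.sub (hf : HasExp N f a) (hg : HasExp N g b) : HasExp N (f - g) (a - b) := by
  intro τ
  simpa [sub_mul] using (hf τ).sub (hg τ)

/-- the shear `(s, m) ↦ (m, s - m)` of `ℤ × ℤ`. -/
def shearZ : ℤ × ℤ ≃ ℤ × ℤ where
  toFun p := (p.2, p.1 - p.2)
  invFun p := (p.1 + p.2, p.1)
  left_inv p := by simp
  right_inv p := by simp

theorem hasSum_fibre_mul (a b : LaurentSeries ℂ) {q : ℂ} (hq0 : q ≠ 0) (s : ℤ) :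
    HasSum (fun m : ℤ => (a.coeff m * q ^ m) * (b.coeff (s - m) * q ^ (s - m)))
      ((a * b).coeff s * q ^ s) := by
  have h4 : (a * b).coeff s * q ^ s =
      ∑ m ∈ (Finset.antidiagonal a.isPWO_support b.isPWO_support s).image Prod.fst,
        (a.coeff m * q ^ m) * (b.coeff (s - m) * q ^ (s - m)) := by
    rw [Finset.sum_image, HahnSeries.coeff_mul, Finset.sum_mul]
    · refine Finset.sum_congr rfl ?_
      intro ij hij
      rw [Finset.mem_antidiagonal] at hij
      obtain ⟨-, -, h⟩ := hij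
      have h5 : s - ij.1 = ij.2 := by omega
      rw [h5, ← h, zpow_add₀ hq0]
      ring
    · intro x hx y hy hxy
      simp only [Finset.mem_coe, Finset.mem_antidiagonal] at hx hy
      ext
      · exact hxy
      · have := hx.2.2; have := hy.2.2; omega
  rw [h4]
  refine hasSum_sum_of_ne_finset_zero ?_
  intro m hm
  by_contra hne
  apply hm
  rw [Finset.mem_image]
  refine ⟨(m, s - m), ?_, rfl⟩
  rw [Finset.mem_antidiagonal]
  refine ⟨?_, ?_, by simp⟩
  · intro h0
    apply hne
    simp only at h0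
    rw [h0]; ring
  · intro h0
    apply hne
    simp only at h0
    rw [h0]; ring

theorem hasSum_mul_shear {u v : ℤ → ℂ} {s t : ℂ} (hu : HasSum u s) (hv : HasSum v t) :
    HasSum (fun p : ℤ × ℤ => u p.2 * v (p.1 - p.2)) (s * t) := by
  have h1 : Summable fun x : ℤ × ℤ => u x.1 * v x.2 :=
    summable_mul_of_summable_norm hu.summable.norm hv.summable.norm
  have h2 := hu.mul hv h1
  exact (shearZ.hasSum_iff).2 h2

theorem HasExp.mul (hf : HasExp N f a) (hg : HasExp N g b) : HasExp N (f * g) (a * b) := by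
  intro τ
  exact HasSum.prod_fiberwise (hasSum_mul_shear (hf τ) (hg τ))
    (fun s => hasSum_fibre_mul a b (qN_ne_zero τ) s)

theorem HasExp.pow (hf : HasExp N f a) (n : ℕ) : HasExp N (f ^ n) (a ^ n) := by
  induction n with
  | zero =>
    have h := hasExp_const (N := N) 1
    rw [map_one] at h
    rw [pow_zero, pow_zero]
    exact h
  | succ n ih =>
    rw [pow_succ, pow_succ]
    exact ih.mul hf

/-- every point of the punctured unit disc is a value of `qN N`. -/
theorem exists_qN_eq {q : ℂ} (hq : ‖q‖ < 1) (hq0 : q ≠ 0) : ∃ τ : ℍ, qN N τ = q := by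
  have hN : (0 : ℝ) < N := by exact_mod_cast NeZero.pos N
  exact ⟨⟨Function.Periodic.invQParam N q,
    Function.Periodic.im_invQParam_pos_of_norm_lt_one hN hq hq0⟩,
    Function.Periodic.qParam_right_inv hN.ne' hq0⟩

/-- a power series in `q_N` converging on all of `ℍ` has radius of convergence at least one. -/
theorem hasFPowerSeriesOnBall_of_hasSum_qN {F : ℍ → ℂ} {c : ℕ → ℂ}
    (hF : ∀ τ : ℍ, HasSum (fun m : ℕ => c m * qN N τ ^ m) (F τ)) :
    HasFPowerSeriesOnBall (fun q : ℂ => ∑' m : ℕ, c m * q ^ m) (.ofScalars ℂ c) 0 1 := by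
  have hsum : ∀ q : ℂ, ‖q‖ < 1 → Summable (fun m : ℕ => c m * q ^ m) := by
    intro q hq
    rcases eq_or_ne q 0 with rfl | hq0
    · refine summable_of_ne_finset_zero (s := {0}) ?_
      intro m hm
      have : m ≠ 0 := by simpa using hm
      simp [this]
    · obtain ⟨τ, rfl⟩ := exists_qN_eq (N := N) hq hq0
      exact (hF τ).summable
  constructor
  · refine le_of_forall_lt_imp_le_of_dense fun r hr ↦ ?_
    lift r to NNReal using hr.ne_top
    apply FormalMultilinearSeries.le_radius_of_summable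
    simpa [smul_eq_mul, norm_mul, mul_comm, mul_left_comm, mul_assoc] using
      (hsum r (by simpa using hr)).norm
  · simp
  · intro y hy
    rw [← ENNReal.coe_one, Metric.eball_coe, NNReal.coe_one, mem_ball_zero_iff] at hy
    simpa [mul_comm] using (hsum y hy).hasSum

theorem HasExp.hasSum_shift (hf : HasExp N f a) {m : ℕ}
    (hm : ∀ n : ℤ, n < -(m : ℤ) → a.coeff n = 0) (τ : ℍ) :
    HasSum (fun k : ℕ => a.coeff ((k : ℤ) - m) * qN N τ ^ k) (qN N τ ^ m * f τ) := by
  have hinj : Function.Injective (fun k : ℕ => (k : ℤ) - m) := fun x y h => by simpa using h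
  have h1 := (hinj.hasSum_iff (f := fun n : ℤ => a.coeff n * qN N τ ^ n) (a := f τ) (by
    intro n hn
    have : n < -(m : ℤ) := by
      by_contra h
      apply hn
      exact ⟨(n + m).toNat, by simp only; omega⟩
    rw [hm n this, zero_mul])).2 (hf τ)
  have h2 := h1.mul_left (qN N τ ^ m)
  have h3 : (fun k : ℕ => a.coeff ((k : ℤ) - m) * qN N τ ^ k) = fun i : ℕ => qN N τ ^ m *
      ((fun n : ℤ => a.coeff n * qN N τ ^ n) ∘ fun k : ℕ => (k : ℤ) - m) i := by
    funext k
    simp only [Function.comp]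
    rw [zpow_sub₀ (qN_ne_zero τ), zpow_natCast, zpow_natCast]
    have := qN_ne_zero (N := N) τ
    field_simp
  rw [h3]
  exact h2

theorem exists_coeff_eq_zero_of_lt (a : LaurentSeries ℂ) :
    ∃ m : ℕ, ∀ n : ℤ, n < -(m : ℤ) → a.coeff n = 0 :=
  ⟨(-a.order).toNat, fun n hn => HahnSeries.coeff_eq_zero_of_lt_order (by omega)⟩

theorem HasExp.eq_zero_of_zero (hf : HasExp N 0 a) : a = 0 := by
  obtain ⟨m, hm⟩ := exists_coeff_eq_zero_of_lt a
  have h1 := hf.hasSum_shift hm
  have h2 := hasFPowerSeriesOnBall_of_hasSum_qN h1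
  have h3 : (fun q : ℂ => ∑' k : ℕ, a.coeff ((k : ℤ) - m) * q ^ k) =ᶠ[nhdsWithin 0 {0}ᶜ] 0 := by
    have : Metric.ball (0 : ℂ) 1 ∈ nhds (0 : ℂ) := Metric.ball_mem_nhds _ one_pos
    filter_upwards [nhdsWithin_le_nhds this, self_mem_nhdsWithin] with q hq hq0
    obtain ⟨τ, rfl⟩ := exists_qN_eq (N := N) (by simpa using hq) hq0
    simpa using (h1 τ).tsum_eq
  have h4 := (h2.hasFPowerSeriesAt.continuousAt.eventuallyEq_nhds_iff_eventuallyEq_nhdsNE
    (g := 0) continuousAt_const).mp h3
  have h5 := (h2.hasFPowerSeriesAt.congr h4).eq_zero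
  rw [FormalMultilinearSeries.ofScalars_series_eq_zero] at h5
  ext n
  by_cases hn : n < -(m : ℤ)
  · simpa using hm n hn
  · have := congrFun h5 (n + m).toNat
    have h6 : (((n + m).toNat : ℕ) : ℤ) - m = n := by omega
    simp only [Pi.zero_apply] at this
    rw [h6] at this
    simpa using this

theorem HasExp.unique (hf : HasExp N f a) (hf' : HasExp N f b) : a = b := by
  have h := hf.sub hf'
  rw [sub_self] at h
  exact sub_eq_zero.1 h.eq_zero_of_zero

theorem HasExp.fun_unique (hf : HasExp N f a) (hg : HasExp N g a) : f = g :=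
  funext fun τ => (hf τ).unique (hg τ)

theorem HasExp.mdifferentiable (hf : HasExp N f a) : MDiff f := by
  obtain ⟨m, hm⟩ := exists_coeff_eq_zero_of_lt a
  have h1 := hf.hasSum_shift hm
  have h2 := hasFPowerSeriesOnBall_of_hasSum_qN h1
  rw [UpperHalfPlane.mdifferentiable_iff]
  have key : DifferentiableOn ℂ (fun z : ℂ => (Function.Periodic.qParam (N : ℝ) z ^ m)⁻¹ *
      (fun q : ℂ => ∑' k : ℕ, a.coeff ((k : ℤ) - m) * q ^ k) (Function.Periodic.qParam (N : ℝ) z))
      {z | 0 < z.im} := by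
    intro z hz
    have hN : (0 : ℝ) < N := by exact_mod_cast NeZero.pos N
    have hq : ‖Function.Periodic.qParam (N : ℝ) z‖ < 1 :=
      Function.Periodic.norm_qParam_lt_one hN hz
    have hd : DifferentiableAt ℂ (Function.Periodic.qParam (N : ℝ)) z :=
      Function.Periodic.differentiable_qParam z
    have hG : DifferentiableAt ℂ (fun q : ℂ => ∑' k : ℕ, a.coeff ((k : ℤ) - m) * q ^ k)
        (Function.Periodic.qParam (N : ℝ) z) :=
      (h2.analyticAt_of_mem (by
        rw [← ENNReal.coe_one, Metric.eball_coe, NNReal.coe_one, mem_ball_zero_iff]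
        exact hq)).differentiableAt
    refine DifferentiableAt.differentiableWithinAt ?_
    refine DifferentiableAt.mul ?_ ?_
    · exact (hd.pow m).inv (pow_ne_zero _ (Function.Periodic.qParam_ne_zero z))
    · exact hG.comp z hd
  refine key.congr ?_
  intro z hz
  have hz' : 0 < z.im := hz
  simp only [Function.comp, UpperHalfPlane.ofComplex_apply_of_im_pos hz']
  have h3 := (h1 ⟨z, hz'⟩).tsum_eq
  have h4 : qN N ⟨z, hz'⟩ = Function.Periodic.qParam (N : ℝ) z := rfl
  rw [h4] at h3
  rw [h3]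
  have := Function.Periodic.qParam_ne_zero (h := (N : ℝ)) z
  field_simp

/-- value at infinity -/
theorem HasExp.tendsto (hf : HasExp N f a) (ha : ∀ n : ℤ, n < 0 → a.coeff n = 0) :
    Filter.Tendsto f atImInfty (nhds (a.coeff 0)) := by
  have h1 := hf.hasSum_shift (m := 0) (by simpa using ha)
  have h2 := hasFPowerSeriesOnBall_of_hasSum_qN h1
  have hN : (0 : ℝ) < N := by exact_mod_cast NeZero.pos N
  have h3 := h2.hasFPowerSeriesAt.continuousAt.tendsto.comp (qParam_tendsto_atImInfty hN)
  have h4 : ((fun q : ℂ => ∑' k : ℕ, a.coeff ((k : ℤ) - (0 : ℕ)) * q ^ k) ∘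
      fun τ : ℍ => Function.Periodic.qParam (N : ℝ) (τ : ℂ)) = f := by
    funext τ
    simpa [qN] using (h1 τ).tsum_eq
  rw [h4] at h3
  have h5 : (∑' k : ℕ, a.coeff ((k : ℤ) - (0 : ℕ)) * (0 : ℂ) ^ k) = a.coeff 0 := by
    rw [tsum_eq_single 0]
    · simp
    · intro k hk
      simp [hk]
  rwa [h5] at h3

theorem HasExp.isBoundedAtImInfty (hf : HasExp N f a) (ha : ∀ n : ℤ, n < 0 → a.coeff n = 0) :
    IsBoundedAtImInfty f :=
  (hf.tendsto ha).isBigO_one ℝ

end Fermat.Agent.S28.DG
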