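import Fermat.Agent.S28.DG.Analytic.HasExp

/-!
# S28, Part A4: expansion of `f((ατ+β)/δ)` from the expansion of `f`
`q((ατ+β)/δ) = ξ * q_N(τ)^(N/δ*α)` with `ξ = exp(2πiβ/δ)`; reindex the sum along `n ↦ (N/δ*α) * n`
(`Function.Injective.hasSum_iff`, `qExpand_coeff_mul`, `qExpand_coeff_of_not_dvd`).
-/

set_option autoImplicit false
open ModularCurve UpperHalfPlane Complex
open scoped ModularForm MatrixGroups Real Manifold
noncomputable section

namespace Fermat.Agent.S28.DG

/-- `q((ατ+β)/δ) = ξ * q_N(τ)^(N/δ*α)`. -/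
theorem qN_one_utMap {N α δ : ℕ} [NeZero N] (β : ℤ) (hα : 0 < α) (hδ : 0 < δ) (hδN : δ ∣ N)
    (τ : ℍ) :
    qN 1 (utMap α δ β hα hδ τ) =
      Complex.exp (2 * π * Complex.I * β / δ) * qN N τ ^ (N / δ * α) := by
  obtain ⟨m, rfl⟩ := hδN
  have hδ0 : (δ : ℂ) ≠ 0 := by exact_mod_cast hδ.ne'
  have hm0 : (m : ℂ) ≠ 0 := by
    have : δ * m ≠ 0 := NeZero.ne _
    have hm : m ≠ 0 := fun h => this (by simp [h])
    exact_mod_cast hm
  rw [Nat.mul_div_cancel_left _ hδ]
  simp only [qN, Function.Periodic.qParam, utMap, UpperHalfPlane.coe_mk]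
  rw [← Complex.exp_nat_mul, ← Complex.exp_add]
  congr 1
  push_cast
  field_simp
  ring

theorem hasSum_qExpand_twist {e : ℕ} [NeZero e] (a : LaurentSeries ℂ) (ξ : ℂˣ) (q v : ℂ)
    (h1 : HasSum (fun n : ℤ => a.coeff n * ((ξ : ℂ) * q ^ e) ^ n) v) :
    HasSum (fun n : ℤ => (qExpand ℂ e (twist ξ a)).coeff n * q ^ n) v := by
  have he0 : (e : ℤ) ≠ 0 := by exact_mod_cast NeZero.ne e
  have hinj : Function.Injective (fun n : ℤ => (e : ℤ) * n) := mul_right_injective₀ he0
  rw [← hinj.hasSum_iff]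
  · convert h1 using 2 with n
    simp only [Function.comp_apply, qExpand_coeff_mul, twist_coeff]
    rw [mul_zpow, zpow_mul, zpow_natCast, Units.val_zpow_eq_zpow_val]
    ring
  · intro n hn
    rw [qExpand_coeff_of_not_dvd, zero_mul]
    rintro ⟨m, rfl⟩
    exact hn ⟨m, rfl⟩

theorem HasExp.comp_utMap {N α δ : ℕ} [NeZero N] (β : ℤ) (hα : 0 < α) (hδ : 0 < δ) (hδN : δ ∣ N)
    [NeZero (N / δ * α)] {f : ℍ → ℂ} {a : LaurentSeries ℂ} (h : HasExp 1 f a)
    (ξ : ℂˣ) (hξ : (ξ : ℂ) = Complex.exp (2 * π * Complex.I * β / δ)) :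
    HasExp N (f ∘ utMap α δ β hα hδ) (qExpand ℂ (N / δ * α) (twist ξ a)) := by
  intro τ
  have h1 := h (utMap α δ β hα hδ τ)
  rw [qN_one_utMap β hα hδ hδN τ, ← hξ] at h1
  exact hasSum_qExpand_twist a ξ _ _ h1

theorem coeffMap_twist {R S : Type*} [CommRing R] [CommRing S] (f : R →+* S) (ξ : Rˣ)
    (a : LaurentSeries R) : coeffMap f (twist ξ a) = twist (Units.map (f : R →* S) ξ) (coeffMap f a) := by
  ext n
  simp only [coeffMap_coeff, twist_coeff, map_mul]
  rw [← map_zpow, Units.coe_map]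
  rfl

theorem twist_coeff_eq_zero_iff {R : Type*} [CommRing R] (ξ : Rˣ) (a : LaurentSeries R) (n : ℤ) :
    (twist ξ a).coeff n = 0 ↔ a.coeff n = 0 := by
  rw [twist_coeff, Units.mul_right_eq_zero]

theorem twist_eq_zero_iff {R : Type*} [CommRing R] (ξ : Rˣ) (a : LaurentSeries R) :
    twist ξ a = 0 ↔ a = 0 := by
  constructor
  · intro h
    ext n
    have := congrArg (fun x => HahnSeries.coeff x n) h
    simpa [Units.mul_right_eq_zero] using this
  · rintro rfl
    ext n
    simp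

theorem order_twist {R : Type*} [CommRing R] (ξ : Rˣ) (a : LaurentSeries R) :
    (twist ξ a).order = a.order ∧
      (twist ξ a).leadingCoeff = ((ξ ^ a.order : Rˣ) : R) * a.leadingCoeff := by
  have h1 : (twist ξ a).order = a.order := by
    by_cases ha : a = 0
    · rw [(twist_eq_zero_iff ξ a).2 ha, ha]
    · have ha' : twist ξ a ≠ 0 := fun h => ha ((twist_eq_zero_iff ξ a).1 h)
      apply le_antisymm
      · apply HahnSeries.order_le_of_coeff_ne_zero
        rw [Ne, twist_coeff_eq_zero_iff, HahnSeries.coeff_order_eq_zero]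
        exact ha
      · apply HahnSeries.order_le_of_coeff_ne_zero
        rw [Ne, ← twist_coeff_eq_zero_iff ξ, HahnSeries.coeff_order_eq_zero]
        exact ha'
  refine ⟨h1, ?_⟩
  rw [HahnSeries.leadingCoeff_eq, HahnSeries.leadingCoeff_eq, h1, twist_coeff]

theorem order_qExpand {R : Type*} [CommRing R] (e : ℕ) [NeZero e] (a : LaurentSeries R) :
    (qExpand R e a).order = e * a.order ∧ (qExpand R e a).leadingCoeff = a.leadingCoeff := by
  have he0 : (0 : ℤ) < (e : ℤ) := by exact_mod_cast Nat.pos_of_ne_zero (NeZero.ne e)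
  have h1 : (qExpand R e a).order = e * a.order := by
    by_cases ha : a = 0
    · rw [ha, map_zero, HahnSeries.order_zero, mul_zero]
    · have ha' : qExpand R e a ≠ 0 := fun h => ha (qExpand_injective e (by rw [h, map_zero]))
      apply le_antisymm
      · apply HahnSeries.order_le_of_coeff_ne_zero
        rw [qExpand_coeff_mul, Ne, HahnSeries.coeff_order_eq_zero]
        exact ha
      · have h2 : (qExpand R e a).coeff (qExpand R e a).order ≠ 0 := by
          rw [Ne, HahnSeries.coeff_order_eq_zero]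
          exact ha'
        by_cases hd : (e : ℤ) ∣ (qExpand R e a).order
        · obtain ⟨m, hm⟩ := hd
          rw [hm] at h2 ⊢
          rw [qExpand_coeff_mul] at h2
          exact mul_le_mul_of_nonneg_left (HahnSeries.order_le_of_coeff_ne_zero h2) he0.le
        · exact absurd (qExpand_coeff_of_not_dvd e a hd) h2
  refine ⟨h1, ?_⟩
  rw [HahnSeries.leadingCoeff_eq, HahnSeries.leadingCoeff_eq, h1, qExpand_coeff_mul]

theorem twist_one {R : Type*} [CommRing R] (a : LaurentSeries R) : twist 1 a = a := by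
  ext n
  simp

end Fermat.Agent.S28.DG
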