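import Fermat.Agent.S28.DG.Analytic.LevelOne
import Fermat.Agent.S28.DG.Analytic.Twist

/-!
# S28, Part A6: `SL₂(ℤ)`-invariant functions with a `q_N`-expansion with coefficients in `O` are polynomials in `j` over `O`

Proof sketch. Invariance under `T` and `HasExp.unique` show `a.coeff n = 0` unless `N ∣ n`.
Induction on the pole order: if `a` has a pole of order at most `N*(m+1)`, subtract
`a.coeff (-N*(m+1)) • j^(m+1)`
(`hasExp_jFun` transported to level `N`: `HasExp N jFun (qExpand ℂ N (jqModC ℂ))`).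
If `a` has no polar part, `f` is holomorphic (`HasExp.mdifferentiable`), bounded at `i∞`
(`HasExp.isBoundedAtImInfty`) and invariant, i.e. a `ModularForm 𝒮ℒ 0`, hence constant
(`ModularFormClass.levelOne_weight_zero_const`), equal to `a.coeff 0` (`HasExp.tendsto`).
-/

set_option autoImplicit false
open ModularCurve UpperHalfPlane Complex
open scoped ModularForm MatrixGroups Real Manifold
noncomputable section

namespace Fermat.Agent.S28.DG

/-- Transport an expansion in `q` to an expansion in `q_N`. -/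
theorem HasExp.inv_level (N : ℕ) [NeZero N] {f : ℍ → ℂ} {a : LaurentSeries ℂ} (h : HasExp 1 f a) :
    HasExp N f (qExpand ℂ N a) := by
  intro τ
  have hN : (N : ℤ) ≠ 0 := by exact_mod_cast NeZero.ne N
  have hinj : Function.Injective (fun n : ℤ => (N : ℤ) * n) := mul_right_injective₀ hN
  rw [← hinj.hasSum_iff]
  · have h1 := h τ
    convert h1 using 1
    funext n
    simp only [Function.comp_apply, qExpand_coeff_mul]
    rw [zpow_mul, zpow_natCast, qN_pow_eq]
  · intro n hn
    rw [qExpand_coeff_of_not_dvd, zero_mul]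
    rintro ⟨m, rfl⟩
    exact hn ⟨m, rfl⟩

theorem hasExp_jFun_level (N : ℕ) [NeZero N] : HasExp N jFun (qExpand ℂ N (jqModC ℂ)) :=
  hasExp_jFun.inv_level N

/-- `q_N (τ + 1) = exp (2πi/N) q_N(τ)`. -/
theorem inv_qN_T_smul (N : ℕ) [NeZero N] (τ : ℍ) :
    qN N (ModularGroup.T • τ) = Complex.exp (2 * π * Complex.I / N) * qN N τ := by
  have hN : (N : ℂ) ≠ 0 := by exact_mod_cast NeZero.ne N
  rw [UpperHalfPlane.modular_T_smul, qN, qN, Function.Periodic.qParam, Function.Periodic.qParam,
    ← Complex.exp_add, UpperHalfPlane.coe_vadd]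
  congr 1
  push_cast
  field_simp

/-- A `T`-invariant function with a `q_N`-expansion only has exponents divisible by `N`. -/
theorem HasExp.inv_coeff_eq_zero {N : ℕ} [NeZero N] {f : ℍ → ℂ} {a : LaurentSeries ℂ}
    (h : HasExp N f a) (hT : ∀ τ : ℍ, f (ModularGroup.T • τ) = f τ) {n : ℤ} (hn : ¬ (N : ℤ) ∣ n) :
    a.coeff n = 0 := by
  have hN : N ≠ 0 := NeZero.ne N
  have hprim : IsPrimitiveRoot (Complex.exp (2 * π * Complex.I / N)) N :=
    Complex.isPrimitiveRoot_exp N hN
  set ξ : ℂˣ := Units.mk0 (Complex.exp (2 * π * Complex.I / N)) (Complex.exp_ne_zero _) with hξ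
  have h2 : HasExp N f (twist ξ a) := by
    intro τ
    have h3 := h (ModularGroup.T • τ)
    rw [hT τ] at h3
    convert h3 using 1
    funext m
    rw [twist_coeff, inv_qN_T_smul, mul_zpow, Units.val_zpow_eq_zpow_val, hξ, Units.val_mk0]
    ring
  have h4 := congrArg (fun b => HahnSeries.coeff b n) (h.unique h2)
  simp only [twist_coeff, Units.val_zpow_eq_zpow_val, hξ, Units.val_mk0] at h4
  by_contra hne
  have h5 : Complex.exp (2 * π * Complex.I / N) ^ n = 1 := by
    have h6 : (Complex.exp (2 * π * Complex.I / N) ^ n - 1) * a.coeff n = 0 := by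
      linear_combination -h4
    rcases mul_eq_zero.mp h6 with h7 | h7
    · exact sub_eq_zero.mp h7
    · exact absurd h7 hne
  exact hn ((hprim.zpow_eq_one_iff_dvd n).mp h5)

/-- A holomorphic invariant function which is bounded at `i∞` is constant. -/
theorem inv_const_of_invariant {f : ℍ → ℂ} (hf : MDiff f) (hbd : IsBoundedAtImInfty f)
    (hinv : ∀ (γ : SL(2, ℤ)) (τ : ℍ), f (γ • τ) = f τ) : ∃ c : ℂ, f = fun _ => c := by
  have hsl : ∀ γ : SL(2, ℤ), f ∣[(0 : ℤ)] γ = f := by
    intro γ
    ext τ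
    rw [ModularForm.SL_slash_apply, hinv]
    simp
  let F : ModularForm 𝒮ℒ 0 :=
    { toFun := f
      slash_action_eq' := by
        rintro _ ⟨γ, rfl⟩
        exact hsl γ
      holo' := hf
      bdd_at_cusps' := fun {c} hc => by
        rw [OnePoint.isBoundedAt_iff_forall_SL2Z hc]
        intro γ _
        rw [hsl γ]
        exact hbd }
  obtain ⟨c, hc⟩ := ModularFormClass.levelOne_weight_zero_const F
  exact ⟨c, hc⟩

/-- The inductive statement. -/
theorem inv_exists_polynomial_aux (O : Type) [CommRing O] [Algebra O ℂ] [FaithfulSMul O ℂ]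
    (N : ℕ) [NeZero N] (m : ℕ) : ∀ (f : ℍ → ℂ) (a : LaurentSeries O), HasExpO O N f a →
    (∀ (γ : SL(2, ℤ)) (τ : ℍ), f (γ • τ) = f τ) →
    (∀ n : ℤ, n < -((N : ℤ) * m) → a.coeff n = 0) →
    ∃ p : Polynomial O, ∀ τ, f τ = Polynomial.aeval (jFun τ) p := by
  have hNpos : (0 : ℤ) < N := by exact_mod_cast Nat.pos_of_ne_zero (NeZero.ne N)
  have hφ : Function.Injective (algebraMap O ℂ) := FaithfulSMul.algebraMap_injective O ℂ
  induction m with
  | zero =>
    intro f a hf hinv ha
    have ha' : ∀ n : ℤ, n < 0 → (coeffMap (algebraMap O ℂ) a).coeff n = 0 := by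
      intro n hn
      rw [coeffMap_coeff, ha n (by simpa using hn), map_zero]
    obtain ⟨c, rfl⟩ := inv_const_of_invariant (HasExp.mdifferentiable hf)
      (HasExp.isBoundedAtImInfty hf ha') hinv
    have h1 := HasExp.tendsto hf ha'
    have h2 : c = (coeffMap (algebraMap O ℂ) a).coeff 0 :=
      tendsto_nhds_unique tendsto_const_nhds h1
    refine ⟨Polynomial.C (a.coeff 0), fun τ => ?_⟩
    rw [Polynomial.aeval_C, h2, coeffMap_coeff]
  | succ m ih =>
    intro f a hf hinv ha
    set c : O := a.coeff (-((N : ℤ) * ((m + 1 : ℕ) : ℤ))) with hc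
    set J : LaurentSeries O := qExpand O N (jqModC O ^ (m + 1)) with hJ
    have hJc : coeffMap (algebraMap O ℂ) J = (qExpand ℂ N (jqModC ℂ)) ^ (m + 1) := by
      rw [hJ, coeffMap_qExpand, map_pow, coeffMap_jqModC, map_pow]
    set g : ℍ → ℂ := f - (fun _ => algebraMap O ℂ c) * jFun ^ (m + 1) with hg
    have hf' : HasExpO O N g (a - HahnSeries.C c * J) := by
      unfold HasExpO
      rw [map_sub, map_mul, hJc]
      refine HasExp.sub hf (HasExp.mul ?_ ((hasExp_jFun_level N).pow (m + 1)))
      have : coeffMap (algebraMap O ℂ) (HahnSeries.C c) = HahnSeries.C (algebraMap O ℂ c) := by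
        rw [HahnSeries.C_apply, coeffMap_single, HahnSeries.C_apply]
      rw [this]
      exact hasExp_const _
    have hinv' : ∀ (γ : SL(2, ℤ)) (τ : ℍ), g (γ • τ) = g τ := by
      intro γ τ
      simp only [hg, Pi.sub_apply, Pi.mul_apply, Pi.pow_apply, hinv γ τ, jFun_smul]
    have hdvd : ∀ n : ℤ, ¬ (N : ℤ) ∣ n → a.coeff n = 0 := by
      intro n hn
      apply hφ
      rw [map_zero, ← coeffMap_coeff]
      exact HasExp.inv_coeff_eq_zero hf (fun τ => hinv _ τ) hn
    have ha' : ∀ n : ℤ, n < -((N : ℤ) * m) → (a - HahnSeries.C c * J).coeff n = 0 := by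
      intro n hn
      rw [HahnSeries.coeff_sub, HahnSeries.C_mul_eq_smul, HahnSeries.coeff_smul, smul_eq_mul]
      by_cases hd : (N : ℤ) ∣ n
      · obtain ⟨k, rfl⟩ := hd
        rw [hJ, qExpand_coeff_mul]
        have hk : k < -(m : ℤ) := by
          by_contra hk
          push Not at hk
          have : -((N : ℤ) * m) ≤ N * k := by nlinarith
          omega
        rcases (show k < -((m + 1 : ℕ) : ℤ) ∨ k = -((m + 1 : ℕ) : ℤ) by push_cast; omega) with hk' | hk'
        · rw [coeff_jqModC_pow_of_lt O hk', mul_zero, sub_zero]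
          apply ha
          push_cast at hk' ⊢
          nlinarith
        · rw [hk', coeff_jqModC_pow_self, mul_one, hc]
          rw [mul_neg, sub_self]
      · rw [hdvd n hd, hJ, qExpand_coeff_of_not_dvd N _ hd, mul_zero, sub_zero]
    obtain ⟨p, hp⟩ := ih _ _ hf' hinv' ha'
    refine ⟨p + Polynomial.C c * Polynomial.X ^ (m + 1), fun τ => ?_⟩
    have h1 := hp τ
    simp only [hg, Pi.sub_apply, Pi.mul_apply, Pi.pow_apply] at h1
    rw [map_add, map_mul, Polynomial.aeval_C, map_pow, Polynomial.aeval_X, ← h1]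
    ring

theorem exists_polynomial_of_invariant (O : Type) [CommRing O] [Algebra O ℂ] [FaithfulSMul O ℂ]
    (N : ℕ) [NeZero N] (f : ℍ → ℂ) (a : LaurentSeries O) (hf : HasExpO O N f a)
    (hinv : ∀ (γ : SL(2, ℤ)) (τ : ℍ), f (γ • τ) = f τ) :
    ∃ p : Polynomial O, ∀ τ, f τ = Polynomial.aeval (jFun τ) p := by
  have hNpos : (1 : ℤ) ≤ N := by exact_mod_cast Nat.pos_of_ne_zero (NeZero.ne N)
  refine inv_exists_polynomial_aux O N (-a.order).toNat f a hf hinv (fun n hn => ?_)
  apply HahnSeries.coeff_eq_zero_of_lt_order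
  have h1 : -a.order ≤ ((-a.order).toNat : ℤ) := Int.self_le_toNat _
  have h2 : (0 : ℤ) ≤ ((-a.order).toNat : ℤ) := Int.natCast_nonneg _
  nlinarith

end Fermat.Agent.S28.DG
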