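import Fermat.Agent.S28.DG.Analytic.HasExp
import Fermat.Agent.S28.DG.Analytic.Eta

/-!
# S28, Part A3: level one: expansions of `Δ`, `Δ⁻¹`, `E₄`, `j`; invariance of `j`
Hints: `ModularForm.discriminant_eq_q_prod`, `EisensteinSeries.E_qExpansion_coeff` (`bernoulli 4 = -1/30`),
`ModularForm.hasSum_qExpansion`, `CuspForm.discriminant`, `ModularForm.discriminant_ne_zero`.
For `Δ⁻¹`: `q/Δ` is 1-periodic, holomorphic, tends to `1` at `i∞`, so it has a convergent `qExpansion`
(`UpperHalfPlane.hasSum_qExpansion`), and by `HasExp.mul`/`HasExp.unique` that series is the formal inverse.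
-/

set_option autoImplicit false
open ModularCurve UpperHalfPlane Complex
open scoped ModularForm MatrixGroups Real Manifold
noncomputable section

namespace Fermat.Agent.S28.DG

/-- formal `Δ = q ∏ (1-q^n)^24` over any ring. -/
def DeltaS (R : Type*) [CommRing R] : LaurentSeries R :=
  HahnSeries.single (1 : ℤ) 1 * HahnSeries.ofPowerSeries ℤ R (dedekindEtaUnit.map (Int.castRingHom R))

/-- formal `Δ⁻¹` over any ring. -/
def DeltaInvS (R : Type*) [CommRing R] : LaurentSeries R :=
  HahnSeries.single (-1 : ℤ) 1 *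
    HahnSeries.ofPowerSeries ℤ R (dedekindEtaUnitInv.map (Int.castRingHom R))

namespace LevelOne

theorem single_one_mul_single_neg_one (R : Type*) [CommRing R] :
    (HahnSeries.single (1 : ℤ) (1 : R)) * HahnSeries.single (-1 : ℤ) 1 = 1 := by
  rw [HahnSeries.single_mul_single]; simp

theorem ofPS_unit_mul_inv (R : Type*) [CommRing R] :
    HahnSeries.ofPowerSeries ℤ R (dedekindEtaUnit.map (Int.castRingHom R)) *
      HahnSeries.ofPowerSeries ℤ R (dedekindEtaUnitInv.map (Int.castRingHom R)) = 1 := by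
  rw [← map_mul, ← map_mul, dedekindEtaUnit_mul_inv, map_one, map_one]

theorem map_map_intCast {R S : Type*} [CommRing R] [CommRing S] (f : R →+* S)
    (u : PowerSeries ℤ) :
    (u.map (Int.castRingHom R)).map f = u.map (Int.castRingHom S) := by
  ext n
  simp

/-- order and leading coefficient of `X^k * (1 + ...)`. -/
theorem order_single_mul_ofPS (R : Type*) [CommRing R] [Nontrivial R] (k : ℤ) (u : PowerSeries R)
    (hu : PowerSeries.constantCoeff u = 1) :
    (HahnSeries.single k (1 : R) * HahnSeries.ofPowerSeries ℤ R u).order = k ∧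
      (HahnSeries.single k (1 : R) * HahnSeries.ofPowerSeries ℤ R u).leadingCoeff = 1 := by
  set x := HahnSeries.single k (1 : R) * HahnSeries.ofPowerSeries ℤ R u with hx
  have hc : ∀ m : ℤ, x.coeff m = (HahnSeries.ofPowerSeries ℤ R u).coeff (m - k) := by
    intro m
    rw [hx, HahnSeries.coeff_single_mul, one_mul]
  have h1 : x.coeff k = 1 := by
    rw [hc, sub_self]
    have := HahnSeries.ofPowerSeries_apply_coeff (Γ := ℤ) u 0
    simp only [Nat.cast_zero] at this
    rw [this, PowerSeries.coeff_zero_eq_constantCoeff, hu]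
  have h2 : ∀ m : ℤ, m < k → x.coeff m = 0 := by
    intro m hm
    rw [hc, ofPowerSeries_coeff_of_neg _ (by omega)]
  have h3 : x.order = k := by
    refine le_antisymm (HahnSeries.order_le_of_coeff_ne_zero (by rw [h1]; exact one_ne_zero)) ?_
    by_contra hlt
    push Not at hlt
    have h4 := h2 _ hlt
    rw [HahnSeries.coeff_order_eq_zero] at h4
    rw [h4] at h1
    simp at h1
  exact ⟨h3, by rw [HahnSeries.leadingCoeff_eq, h3, h1]⟩

theorem hasExp_ofPowerSeries {N : ℕ} {f : ℍ → ℂ} {p : PowerSeries ℂ}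
    (h : ∀ τ : ℍ, HasSum (fun n : ℕ => PowerSeries.coeff n p * qN N τ ^ n) (f τ)) :
    HasExp N f (HahnSeries.ofPowerSeries ℤ ℂ p) := by
  intro τ
  have hinj : Function.Injective (Nat.cast : ℕ → ℤ) := Nat.cast_injective
  rw [← hinj.hasSum_iff]
  · have he : ((fun n : ℤ => (HahnSeries.ofPowerSeries ℤ ℂ p).coeff n * qN N τ ^ n) ∘ (Nat.cast : ℕ → ℤ))
        = fun n : ℕ => PowerSeries.coeff n p * qN N τ ^ n := by
      funext n
      simp [HahnSeries.ofPowerSeries_apply_coeff]
    rw [he]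
    exact h τ
  · intro k hk
    have : k < 0 := by
      by_contra hk'
      push Not at hk'
      exact hk ⟨k.toNat, by simp [hk']⟩
    rw [ofPowerSeries_coeff_of_neg _ this, zero_mul]

theorem hasExp_single (N : ℕ) (k : ℤ) :
    HasExp N (fun τ => qN N τ ^ k) (HahnSeries.single k 1) := by
  intro τ
  have := hasSum_single (f := fun n : ℤ => (HahnSeries.single k (1 : ℂ)).coeff n * qN N τ ^ n) k
    (by
      intro m hm
      rw [HahnSeries.coeff_single_of_ne hm, zero_mul])
  simpa using this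

/-- the analytic Euler product. -/
def eulerFun (τ : ℍ) : ℂ := ∏' n : ℕ, (1 - qN 1 τ ^ (n + 1))

theorem hasExp_eulerFun :
    HasExp 1 eulerFun (HahnSeries.ofPowerSeries ℤ ℂ (etaProd.map (Int.castRingHom ℂ))) := by
  apply hasExp_ofPowerSeries
  intro τ
  have := hasSum_etaProd (qN 1 τ) (norm_qN_lt_one τ)
  simpa [eulerFun] using this

theorem discriminant_eq (τ : ℍ) : ModularForm.discriminant τ = qN 1 τ * eulerFun τ ^ 24 := by
  rw [ModularForm.discriminant_eq_q_prod, eulerFun,
    ← (ModularForm.multipliable_one_sub_pow (norm_qN_lt_one τ)).tprod_pow 24]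
  simp [qN]

theorem hasExp_eulerFun_pow :
    HasExp 1 (eulerFun ^ 24)
      (HahnSeries.ofPowerSeries ℤ ℂ (dedekindEtaUnit.map (Int.castRingHom ℂ))) := by
  have := hasExp_eulerFun.pow 24
  rwa [← map_pow, ← map_pow] at this

theorem tprod_one_sub_pow_ne_zero {x : ℂ} (hx : ‖x‖ < 1) :
    ∏' n : ℕ, (1 - x ^ (n + 1)) ≠ 0 := by
  have h := tprod_one_add_ne_zero_of_summable (f := fun n : ℕ => -x ^ (n + 1)) ?_ ?_
  · simpa [sub_eq_add_neg] using h
  · intro i
    rw [← sub_eq_add_neg, sub_ne_zero]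
    intro h1
    have h2 : ‖x ^ (i + 1)‖ < 1 := by
      rw [norm_pow]
      exact pow_lt_one₀ (norm_nonneg _) hx (by omega)
    rw [← h1] at h2
    simp at h2
  · simpa using (summable_nat_add_iff 1).mpr (summable_geometric_of_lt_one (norm_nonneg _) hx)

/-- Taylor series of `∏ (1 - x^n)^(-24)`. -/
def invSeries : PowerSeries ℂ := PowerSeries.mk fun n =>
  ((n.factorial : ℂ))⁻¹ * iteratedDeriv n (fun x : ℂ => ((∏' n : ℕ, (1 - x ^ (n + 1))) ^ 24)⁻¹) 0

theorem hasExp_eulerFun_pow_inv :
    HasExp 1 (fun τ => (eulerFun τ ^ 24)⁻¹) (HahnSeries.ofPowerSeries ℤ ℂ invSeries) := by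
  apply hasExp_ofPowerSeries
  intro τ
  have hd : DifferentiableOn ℂ (fun x : ℂ => ((∏' n : ℕ, (1 - x ^ (n + 1))) ^ 24)⁻¹)
      (Metric.ball (0 : ℂ) 1) := by
    apply DifferentiableOn.inv
    · exact ModularForm.differentiableOn_tprod_one_sub_pow.pow 24
    · intro x hx
      exact pow_ne_zero _ (tprod_one_sub_pow_ne_zero (by simpa using hx))
  have hx' : qN 1 τ ∈ Metric.ball (0 : ℂ) 1 := by simpa using norm_qN_lt_one τ
  have h := Complex.hasSum_taylorSeries_on_ball hd hx'
  have he : (fun n : ℕ => PowerSeries.coeff n invSeries * qN 1 τ ^ n) =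
      fun n : ℕ => ((n.factorial : ℂ))⁻¹ • (qN 1 τ - 0) ^ n •
        iteratedDeriv n (fun x : ℂ => ((∏' n : ℕ, (1 - x ^ (n + 1))) ^ 24)⁻¹) 0 := by
    funext n
    simp only [invSeries, PowerSeries.coeff_mk, sub_zero, smul_eq_mul]
    ring
  rw [he]
  exact h

theorem ofPS_invSeries : HahnSeries.ofPowerSeries ℤ ℂ invSeries =
    HahnSeries.ofPowerSeries ℤ ℂ (dedekindEtaUnitInv.map (Int.castRingHom ℂ)) := by
  have h1 := hasExp_eulerFun_pow_inv.mul hasExp_eulerFun_pow
  have h2 : ((fun τ => (eulerFun τ ^ 24)⁻¹) * (eulerFun ^ 24)) = fun _ => (1 : ℂ) := by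
    funext τ
    simp only [Pi.mul_apply, Pi.pow_apply]
    exact inv_mul_cancel₀ (pow_ne_zero _ (tprod_one_sub_pow_ne_zero (norm_qN_lt_one τ)))
  rw [h2] at h1
  have h3 := h1.unique (hasExp_const 1)
  rw [map_one] at h3
  calc _ = HahnSeries.ofPowerSeries ℤ ℂ invSeries *
        (HahnSeries.ofPowerSeries ℤ ℂ (dedekindEtaUnit.map (Int.castRingHom ℂ)) *
      HahnSeries.ofPowerSeries ℤ ℂ (dedekindEtaUnitInv.map (Int.castRingHom ℂ))) := by
        rw [ofPS_unit_mul_inv, mul_one]
    _ = _ := by rw [← mul_assoc, h3, one_mul]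

theorem qExpansion_E4' : qExpansion 1 (ModularForm.E₄ : ℍ → ℂ) = eisenstein4.map (Int.castRingHom ℂ) := by
  ext m
  rw [EisensteinSeries.E_qExpansion_coeff _ ⟨2, rfl⟩, PowerSeries.coeff_map, eisenstein4,
    PowerSeries.coeff_mk]
  split_ifs with h
  · simp
  · rw [show bernoulli 4 = -1 / 30 by decide +kernel, ArithmeticFunction.sigma_apply]
    push_cast
    norm_num

end LevelOne

open LevelOne

theorem DeltaS_mul_DeltaInvS (R : Type*) [CommRing R] : DeltaS R * DeltaInvS R = 1 := by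
  rw [DeltaS, DeltaInvS]
  calc _ = (HahnSeries.single (1 : ℤ) (1 : R) * HahnSeries.single (-1 : ℤ) 1) *
        (HahnSeries.ofPowerSeries ℤ R (dedekindEtaUnit.map (Int.castRingHom R)) *
      HahnSeries.ofPowerSeries ℤ R (dedekindEtaUnitInv.map (Int.castRingHom R))) := by ring
    _ = 1 := by rw [single_one_mul_single_neg_one, ofPS_unit_mul_inv, one_mul]

theorem coeffMap_DeltaS {R S : Type*} [CommRing R] [CommRing S] (f : R →+* S) :
    coeffMap f (DeltaS R) = DeltaS S := by
  rw [DeltaS, DeltaS, map_mul, coeffMap_single, map_one, coeffMap_ofPowerSeries, map_map_intCast]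

theorem coeffMap_DeltaInvS {R S : Type*} [CommRing R] [CommRing S] (f : R →+* S) :
    coeffMap f (DeltaInvS R) = DeltaInvS S := by
  rw [DeltaInvS, DeltaInvS, map_mul, coeffMap_single, map_one, coeffMap_ofPowerSeries,
    map_map_intCast]

theorem order_DeltaS (R : Type*) [CommRing R] [Nontrivial R] :
    (DeltaS R).order = 1 ∧ (DeltaS R).leadingCoeff = 1 := by
  apply order_single_mul_ofPS
  rw [← PowerSeries.coeff_zero_eq_constantCoeff, PowerSeries.coeff_map,
    PowerSeries.coeff_zero_eq_constantCoeff, constantCoeff_dedekindEtaUnit]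
  simp

theorem order_DeltaInvS (R : Type*) [CommRing R] [Nontrivial R] :
    (DeltaInvS R).order = -1 ∧ (DeltaInvS R).leadingCoeff = 1 := by
  apply order_single_mul_ofPS
  rw [← PowerSeries.coeff_zero_eq_constantCoeff, PowerSeries.coeff_map,
    PowerSeries.coeff_zero_eq_constantCoeff, constantCoeff_dedekindEtaUnitInv]
  simp

theorem order_jqModC (R : Type*) [CommRing R] [Nontrivial R] :
    (jqModC R).order = -1 ∧ (jqModC R).leadingCoeff = 1 := by
  apply order_single_mul_ofPS
  rw [← PowerSeries.coeff_zero_eq_constantCoeff, PowerSeries.coeff_map,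
    PowerSeries.coeff_zero_eq_constantCoeff, constantCoeff_jNum]
  simp

theorem hasExp_discriminant : HasExp 1 ModularForm.discriminant (DeltaS ℂ) := by
  have h := (hasExp_single 1 1).mul hasExp_eulerFun_pow
  have he : ((fun τ => qN 1 τ ^ (1 : ℤ)) * (eulerFun ^ 24)) = ModularForm.discriminant := by
    funext τ
    simp [discriminant_eq]
  rwa [he] at h

theorem hasExp_inv_discriminant :
    HasExp 1 (fun τ => (ModularForm.discriminant τ)⁻¹) (DeltaInvS ℂ) := by
  have h := (hasExp_single 1 (-1)).mul hasExp_eulerFun_pow_inv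
  rw [ofPS_invSeries] at h
  have he : ((fun τ => qN 1 τ ^ (-1 : ℤ)) * (fun τ => (eulerFun τ ^ 24)⁻¹))
      = fun τ => (ModularForm.discriminant τ)⁻¹ := by
    funext τ
    simp [discriminant_eq, mul_comm]
  rwa [he] at h

theorem hasExp_E4 : HasExp 1 (fun τ => ModularForm.E₄ τ)
    (HahnSeries.ofPowerSeries ℤ ℂ (eisenstein4.map (Int.castRingHom ℂ))) := by
  apply hasExp_ofPowerSeries
  intro τ
  have h := ModularForm.hasSum_qExpansion (f := ModularForm.E₄) one_pos
    one_mem_strictPeriods_SL τ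
  rw [qExpansion_E4'] at h
  simpa [qN] using h

theorem hasExp_jFun : HasExp 1 jFun (jqModC ℂ) := by
  have h := (hasExp_E4.pow 3).mul hasExp_inv_discriminant
  have he : ((fun τ => ModularForm.E₄ τ) ^ 3 * fun τ => (ModularForm.discriminant τ)⁻¹) = jFun := by
    funext τ
    simp [jFun, Fermat.Agent.Lib.AnalyticJ.jFun_def, div_eq_mul_inv]
  rw [he] at h
  have hs : (HahnSeries.ofPowerSeries ℤ ℂ (eisenstein4.map (Int.castRingHom ℂ))) ^ 3 * DeltaInvS ℂ
      = jqModC ℂ := by
    rw [jqModC, jNum, DeltaInvS, map_mul, map_mul, map_pow, map_pow]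
    ring
  rwa [hs] at h

theorem jFun_smul (γ : SL(2, ℤ)) (τ : ℍ) : jFun (γ • τ) = jFun τ :=
  Fermat.Agent.Lib.AnalyticJ.jFun_smul γ τ

end Fermat.Agent.S28.DG
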