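import Fermat.Agent.S28.DG.Analytic.Main.Assemble

/-!
# S28, Part A: construction of the `CuspData` from honest modular functions on the upper half plane
-/

set_option autoImplicit false
open ModularCurve UpperHalfPlane Complex
open scoped Real
noncomputable section

namespace Fermat.Agent.S28.DG

/-- natural numbers prime to `ℓ` are units in `ℤ_(ℓ)`. -/
theorem isUnit_natCast_Rl {ℓ : ℕ} [Fact ℓ.Prime] {n : ℕ} (hn : ¬ ℓ ∣ n) : IsUnit (n : Rl ℓ) := by
  have hn0 : n ≠ 0 := by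
    rintro rfl
    exact hn (dvd_zero ℓ)
  have hmem : ((n : ℚ)⁻¹) ∈ GaloisRep.ratLocalizedAt ℓ := by
    change ((n : ℚ)⁻¹).den.Coprime ℓ
    rw [Rat.inv_natCast_den, if_neg hn0]
    exact (Nat.Coprime.symm ((Nat.Prime.coprime_iff_not_dvd Fact.out).2 hn))
  refine isUnit_iff_exists_inv.2 ⟨⟨(n : ℚ)⁻¹, hmem⟩, ?_⟩
  apply Subtype.ext
  change ((n : Rl ℓ) : ℚ) * (n : ℚ)⁻¹ = 1
  rw [show ((n : Rl ℓ) : ℚ) = (n : ℚ) from by simp]
  exact mul_inv_cancel₀ (by exact_mod_cast hn0)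

/-- roots of unity are integral. -/
theorem isIntegral_exp (ℓ : ℕ) {δ : ℕ} (hδ : 0 < δ) (β : ℤ) :
    IsIntegral (Rl ℓ) (Complex.exp (2 * π * Complex.I * β / δ)) := by
  apply IsIntegral.of_pow hδ
  have h : Complex.exp (2 * π * Complex.I * β / δ) ^ δ = 1 := by
    rw [← Complex.exp_nat_mul, ← Complex.exp_int_mul_two_pi_mul_I β]
    congr 1
    have : (δ : ℂ) ≠ 0 := by exact_mod_cast hδ.ne'
    field_simp
  rw [h]
  exact isIntegral_one

theorem goodCoeff_Ocl (N : ℕ) [NeZero N] (ℓ : ℕ) [Fact ℓ.Prime] (hℓN : ¬ ℓ ∣ N) :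
    GoodCoeff N (Ocl ℓ) where
  exists_root δ β hδN := by
    have hδ : 0 < δ := Nat.pos_of_dvd_of_pos hδN (Nat.pos_of_ne_zero (NeZero.ne N))
    refine ⟨⟨⟨_, isIntegral_exp ℓ hδ β⟩, ⟨_, isIntegral_exp ℓ hδ (-β)⟩, ?_, ?_⟩, rfl⟩
    · apply Subtype.ext
      change Complex.exp _ * Complex.exp _ = 1
      rw [← Complex.exp_add, ← Complex.exp_zero]
      congr 1
      push_cast
      ring
    · apply Subtype.ext
      change Complex.exp _ * Complex.exp _ = 1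
      rw [← Complex.exp_add, ← Complex.exp_zero]
      congr 1
      push_cast
      ring
  isUnit_natCast n hn := by
    have h1 : IsUnit (n : Rl ℓ) := isUnit_natCast_Rl fun h => hℓN (dvd_trans h hn)
    have h2 := h1.map (algebraMap (Rl ℓ) (Ocl ℓ))
    rwa [map_natCast] at h2

/-- **Part A main theorem.** -/
theorem exists_cuspData (N : ℕ) [NeZero N] (ℓ : ℕ) [Fact ℓ.Prime] (hℓN : ¬ ℓ ∣ N) :
    Nonempty (CuspData N (Ocl ℓ)) :=
  ⟨cuspDataOfGood (goodCoeff_Ocl N ℓ hℓN)⟩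

end Fermat.Agent.S28.DG
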