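import Fermat.Agent.S28.DG.Analytic.LevelOne

/-!
# S28, Part A5: integral matrices, Hermite normal form, behaviour of `jM`, `uM`
Hints: `Mathlib/LinearAlgebra/Matrix/FixedDetMatrices.lean` (`FixedDetMatrices.reps`, `reduce_mem_reps`, `induction_on`),
`UpperHalfPlane.coe_smul_of_det_pos`, `SlashAction.slash_mul`, `ModularForm.slash_def`/`slash_apply`,
`CuspForm.discriminant` (`slash_action_eq'`), `ModularForm.SL_slash_apply`.
-/

set_option autoImplicit false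
open ModularCurve UpperHalfPlane Complex
open scoped ModularForm MatrixGroups Real Manifold
noncomputable section

namespace Fermat.Agent.S28.DG

/-- the upper triangular matrix `(α β; 0 δ)` in `GL₂(ℝ)`. -/
def utGL (α δ : ℕ) (β : ℤ) (hα : 0 < α) (hδ : 0 < δ) : GL (Fin 2) ℝ :=
  Matrix.GeneralLinearGroup.mkOfDetNeZero !![(α : ℝ), (β : ℝ); 0, (δ : ℝ)] (by
    simp only [Matrix.det_fin_two_of, mul_zero, sub_zero]
    positivity)

theorem utGL_val (α δ : ℕ) (β : ℤ) (hα : 0 < α) (hδ : 0 < δ) :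
    (utGL α δ β hα hδ : Matrix (Fin 2) (Fin 2) ℝ) = !![(α : ℝ), (β : ℝ); 0, (δ : ℝ)] := rfl

theorem utGL_det (α δ : ℕ) (β : ℤ) (hα : 0 < α) (hδ : 0 < δ) :
    (utGL α δ β hα hδ).det.val = (α : ℝ) * δ := by
  simp [utGL_val]

theorem utGL_det_pos (α δ : ℕ) (β : ℤ) (hα : 0 < α) (hδ : 0 < δ) :
    0 < (utGL α δ β hα hδ).det.val := by
  rw [utGL_det]; positivity

theorem utGL_smul (α δ : ℕ) (β : ℤ) (hα : 0 < α) (hδ : 0 < δ) (τ : ℍ) :
    utGL α δ β hα hδ • τ = utMap α δ β hα hδ τ := by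
  apply UpperHalfPlane.ext
  rw [UpperHalfPlane.coe_smul_of_det_pos (utGL_det_pos α δ β hα hδ)]
  simp [num, denom, utGL_val, utMap]

theorem utGL_mem_intMat {N α δ : ℕ} (β : ℤ) (hα : 0 < α) (hδ : 0 < δ) (h : α * δ ∣ N) :
    utGL α δ β hα hδ ∈ intMat N := by
  refine ⟨!![(α : ℤ), β; 0, (δ : ℤ)], ?_, ?_, ?_⟩
  · simp only [Matrix.det_fin_two_of, mul_zero, sub_zero]; positivity
  · simp only [Matrix.det_fin_two_of, mul_zero, sub_zero]; exact_mod_cast h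
  · rw [utGL_val]
    ext i j
    fin_cases i <;> fin_cases j <;> simp

theorem mul_SL_mem_intMat {N : ℕ} {M : GL (Fin 2) ℝ} (hM : M ∈ intMat N) (γ : SL(2, ℤ)) :
    M * (γ : GL (Fin 2) ℝ) ∈ intMat N := by
  obtain ⟨A, h1, h2, h3⟩ := hM
  refine ⟨A * γ.1, ?_, ?_, ?_⟩
  · rw [Matrix.det_mul, γ.2, mul_one]; exact h1
  · rw [Matrix.det_mul, γ.2, mul_one]; exact h2
  · rw [Units.val_mul, h3]
    ext i j
    simp [Matrix.mul_apply]

theorem hnf_int (A : Matrix (Fin 2) (Fin 2) ℤ) (hA : 0 < A.det) :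
    ∃ (γ : SL(2, ℤ)) (δ : ℕ) (β : ℤ), 0 < Int.gcd (A 0 0) (A 1 0) ∧ 0 < δ ∧
      ((Int.gcd (A 0 0) (A 1 0) : ℤ) * δ = A.det) ∧
      A = γ.1 * !![(Int.gcd (A 0 0) (A 1 0) : ℤ), β; 0, (δ : ℤ)] := by
  rw [Matrix.det_fin_two] at hA ⊢
  set a := A 0 0 with ha
  set b := A 0 1 with hb
  set c := A 1 0 with hc
  set d := A 1 1 with hd
  set g := Int.gcd a c with hg
  have hg0 : 0 < g := by
    rw [hg, Int.gcd_pos_iff]
    by_contra h
    push Not at h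
    rw [h.1, h.2] at hA
    simp at hA
  obtain ⟨a', ha'⟩ : (g : ℤ) ∣ a := Int.gcd_dvd_left a c
  obtain ⟨c', hc'⟩ : (g : ℤ) ∣ c := Int.gcd_dvd_right a c
  have hbez : (g : ℤ) = a * Int.gcdA a c + c * Int.gcdB a c := Int.gcd_eq_gcd_ab a c
  set x := Int.gcdA a c
  set y := Int.gcdB a c
  have hg0' : (g : ℤ) ≠ 0 := by exact_mod_cast hg0.ne'
  have hbez' : a' * x + c' * y = 1 := by
    apply mul_left_cancel₀ hg0'
    calc (g : ℤ) * (a' * x + c' * y) = (g * a') * x + (g * c') * y := by ring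
      _ = a * x + c * y := by rw [← ha', ← hc']
      _ = g * 1 := by rw [← hbez, mul_one]
  have hδ : (g : ℤ) * (a' * d - c' * b) = a * d - b * c := by
    calc (g : ℤ) * (a' * d - c' * b) = (g * a') * d - b * (g * c') := by ring
      _ = a * d - b * c := by rw [← ha', ← hc']
  have hδpos : 0 < a' * d - c' * b := by
    have h1 : 0 < (g : ℤ) * (a' * d - c' * b) := by rw [hδ]; exact hA
    exact (pos_iff_pos_of_mul_pos h1).mp (by exact_mod_cast hg0)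
  refine ⟨⟨!![a', -y; c', x], ?_⟩, (a' * d - c' * b).toNat, x * b + y * d, hg0, ?_, ?_, ?_⟩
  · rw [Matrix.det_fin_two_of]; linarith
  · omega
  · rw [Int.toNat_of_nonneg hδpos.le, hδ]
  · rw [Int.toNat_of_nonneg hδpos.le]
    ext i j
    fin_cases i <;> fin_cases j <;> simp [Matrix.mul_apply, Fin.sum_univ_two]
    · rw [← ha, ha']; ring
    · rw [← hb]; linear_combination (-b) * hbez'
    · rw [← hc, hc']; ring
    · rw [← hd]; linear_combination (-d) * hbez'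

theorem hnf_GL (M : GL (Fin 2) ℝ) (A : Matrix (Fin 2) (Fin 2) ℤ) (hA : 0 < A.det)
    (hM : (M : Matrix (Fin 2) (Fin 2) ℝ) = A.map (Int.cast : ℤ → ℝ)) (α : ℕ)
    (hα : α = Int.gcd (A 0 0) (A 1 0)) :
    ∃ (γ : SL(2, ℤ)) (δ : ℕ) (β : ℤ) (hα : 0 < α) (hδ : 0 < δ), (α : ℤ) * δ = A.det ∧
      M = (γ : GL (Fin 2) ℝ) * utGL α δ β hα hδ := by
  subst hα
  obtain ⟨γ, δ, β, h1, h2, h3, h4⟩ := hnf_int A hA
  refine ⟨γ, δ, β, h1, h2, h3, ?_⟩
  apply Units.ext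
  rw [hM, Units.val_mul, utGL_val]
  conv_lhs => rw [h4]
  ext i j
  fin_cases i <;> fin_cases j <;> simp [Matrix.mul_apply, Fin.sum_univ_two]

/-- Hermite normal form. -/
theorem exists_hnf {N : ℕ} [NeZero N] {M : GL (Fin 2) ℝ} (hM : M ∈ intMat N) :
    ∃ (γ : SL(2, ℤ)) (α δ : ℕ) (β : ℤ) (hα : 0 < α) (hδ : 0 < δ), α * δ ∣ N ∧
      M = (γ : GL (Fin 2) ℝ) * utGL α δ β hα hδ := by
  obtain ⟨A, h1, h2, h3⟩ := hM
  obtain ⟨γ, δ, β, hα, hδ, h4, h5⟩ := hnf_GL M A h1 h3 _ rfl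
  refine ⟨γ, _, δ, β, hα, hδ, ?_, h5⟩
  rw [← h4] at h2
  exact_mod_cast h2

/-- Hermite normal form of `diag(d,1) * γ`: the top left entry is `gcd(d, γ₁₀)`. -/
theorem exists_hnf_diag {d : ℕ} (hd : 0 < d) (γ : SL(2, ℤ)) :
    ∃ (γ' : SL(2, ℤ)) (δ : ℕ) (β : ℤ) (hα : 0 < Nat.gcd (γ 1 0).natAbs d) (hδ : 0 < δ),
      Nat.gcd (γ 1 0).natAbs d * δ = d ∧
      utGL d 1 0 hd one_pos * (γ : GL (Fin 2) ℝ) =
        (γ' : GL (Fin 2) ℝ) * utGL (Nat.gcd (γ 1 0).natAbs d) δ β hα hδ := by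
  have hdet : (!![(d : ℤ) * γ 0 0, (d : ℤ) * γ 0 1; γ 1 0, γ 1 1] : Matrix (Fin 2) (Fin 2) ℤ).det
      = d := by
    have h := γ.2
    rw [Matrix.det_fin_two] at h
    rw [Matrix.det_fin_two_of]
    linear_combination (d : ℤ) * h
  obtain ⟨γ', δ, β, hα, hδ, h4, h5⟩ := hnf_GL (utGL d 1 0 hd one_pos * (γ : GL (Fin 2) ℝ))
    !![(d : ℤ) * γ 0 0, (d : ℤ) * γ 0 1; γ 1 0, γ 1 1] (by rw [hdet]; exact_mod_cast hd)
    (by
      rw [Units.val_mul, utGL_val]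
      ext i j
      fin_cases i <;> fin_cases j <;> simp [Matrix.mul_apply, Fin.sum_univ_two])
    (Nat.gcd (γ 1 0).natAbs d) (by
      have hcop : Nat.Coprime (γ 0 0).natAbs (γ 1 0).natAbs := by
        have h := γ.2
        rw [Matrix.det_fin_two] at h
        have : IsCoprime (γ 0 0) (γ 1 0) := ⟨γ 1 1, -γ 0 1, by linear_combination h⟩
        exact Int.isCoprime_iff_gcd_eq_one.mp this
      simp only [Matrix.of_apply, Matrix.cons_val_zero, Matrix.cons_val_one, Matrix.cons_val',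
        Matrix.cons_val_fin_one]
      rw [Int.gcd, Int.natAbs_mul, Int.natAbs_natCast, Nat.Coprime.gcd_mul_right_cancel d hcop,
        Nat.gcd_comm])
  refine ⟨γ', δ, β, hα, hδ, ?_, h5⟩
  rw [hdet] at h4
  exact_mod_cast h4

theorem coe_SL_val (γ : SL(2, ℤ)) :
    ((γ : GL (Fin 2) ℝ) : Matrix (Fin 2) (Fin 2) ℝ) = γ.1.map (Int.cast : ℤ → ℝ) := by
  ext i j
  simp

theorem int_conj_Gamma {N : ℕ} (A : Matrix (Fin 2) (Fin 2) ℤ) (hA : 0 < A.det)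
    (hAN : A.det ∣ (N : ℤ)) (γ : SL(2, ℤ)) (hγ : γ ∈ CongruenceSubgroup.Gamma N) :
    ∃ γ' : SL(2, ℤ), A * γ.1 = γ'.1 * A := by
  rw [CongruenceSubgroup.Gamma_mem] at hγ
  obtain ⟨h00, h01, h10, h11⟩ := hγ
  have d00 : (N : ℤ) ∣ γ 0 0 - 1 := by
    rw [← ZMod.intCast_zmod_eq_zero_iff_dvd]; push_cast; rw [h00]; ring
  have d01 : (N : ℤ) ∣ γ 0 1 := by
    rw [← ZMod.intCast_zmod_eq_zero_iff_dvd]; exact h01
  have d10 : (N : ℤ) ∣ γ 1 0 := by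
    rw [← ZMod.intCast_zmod_eq_zero_iff_dvd]; exact h10
  have d11 : (N : ℤ) ∣ γ 1 1 - 1 := by
    rw [← ZMod.intCast_zmod_eq_zero_iff_dvd]; push_cast; rw [h11]; ring
  obtain ⟨x00, hx00⟩ := d00
  obtain ⟨x01, hx01⟩ := d01
  obtain ⟨x10, hx10⟩ := d10
  obtain ⟨x11, hx11⟩ := d11
  obtain ⟨e, he⟩ := hAN
  let X : Matrix (Fin 2) (Fin 2) ℤ := !![x00, x01; x10, x11]
  have hX : γ.1 = 1 + (N : ℤ) • X := by
    ext i j
    fin_cases i <;> fin_cases j <;> simp [X]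
    · linarith
    · exact hx01
    · exact hx10
    · linarith
  have hkey : A * γ.1 = (1 + e • (A * X * A.adjugate)) * A := by
    rw [hX, add_mul, one_mul, mul_add, mul_one, Matrix.smul_mul, Matrix.mul_assoc (A * X),
      Matrix.adjugate_mul, Matrix.mul_smul, Matrix.mul_smul, Matrix.mul_one, smul_smul, he,
      mul_comm e]
  refine ⟨⟨1 + e • (A * X * A.adjugate), ?_⟩, hkey⟩
  have h1 := congrArg Matrix.det hkey
  rw [Matrix.det_mul, Matrix.det_mul, γ.2, mul_one] at h1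
  have h2 : A.det * 1 = A.det * (1 + e • (A * X * A.adjugate)).det := by
    rw [mul_one, mul_comm]; exact h1
  exact (mul_left_cancel₀ hA.ne' h2).symm

/-- `Γ(N)` is absorbed on the left. -/
theorem exists_SL_mul_eq_mul_Gamma {N : ℕ} [NeZero N] {M : GL (Fin 2) ℝ} (hM : M ∈ intMat N)
    (γ : SL(2, ℤ)) (hγ : γ ∈ CongruenceSubgroup.Gamma N) :
    ∃ γ' : SL(2, ℤ), M * (γ : GL (Fin 2) ℝ) = (γ' : GL (Fin 2) ℝ) * M := by
  obtain ⟨A, h1, h2, h3⟩ := hM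
  obtain ⟨γ', hγ'⟩ := int_conj_Gamma A h1 h2 γ hγ
  refine ⟨γ', Units.ext ?_⟩
  rw [Units.val_mul, Units.val_mul, h3, coe_SL_val, coe_SL_val]
  have h4 := congrArg (fun B : Matrix (Fin 2) (Fin 2) ℤ => B.map (Int.castRingHom ℝ)) hγ'
  simp only [Matrix.map_mul] at h4
  exact h4

theorem discriminant_slash_SL (γ : SL(2, ℤ)) :
    (ModularForm.discriminant ∣[(12 : ℤ)] (γ : GL (Fin 2) ℝ)) = ModularForm.discriminant :=
  CuspForm.discriminant.slash_action_eq' _ ⟨γ, rfl⟩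

theorem jM_SL_mul (γ : SL(2, ℤ)) (M : GL (Fin 2) ℝ) : jM ((γ : GL (Fin 2) ℝ) * M) = jM M := by
  ext τ
  simp only [jM, mul_smul]
  exact jFun_smul γ (M • τ)

theorem uM_SL_mul (γ : SL(2, ℤ)) (M : GL (Fin 2) ℝ) : uM ((γ : GL (Fin 2) ℝ) * M) = uM M := by
  ext τ
  simp only [uM, SlashAction.slash_mul, discriminant_slash_SL]

theorem jM_smul (M : GL (Fin 2) ℝ) (γ : SL(2, ℤ)) (τ : ℍ) :
    jM M (γ • τ) = jM (M * (γ : GL (Fin 2) ℝ)) τ := by
  simp only [jM, mul_smul]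
  rfl

theorem uM_smul (M : GL (Fin 2) ℝ) (γ : SL(2, ℤ)) (τ : ℍ) :
    uM M (γ • τ) = uM (M * (γ : GL (Fin 2) ℝ)) τ := by
  simp only [uM, SlashAction.slash_mul]
  have h1 : ((ModularForm.discriminant ∣[(12 : ℤ)] M) ∣[(12 : ℤ)] (γ : GL (Fin 2) ℝ)) τ =
      (ModularForm.discriminant ∣[(12 : ℤ)] M) (γ • τ) * denom γ τ ^ (-(12 : ℤ)) :=
    ModularForm.SL_slash_apply _ γ τ
  have h2 : ModularForm.discriminant τ =
      ModularForm.discriminant (γ • τ) * denom γ τ ^ (-(12 : ℤ)) := by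
    conv_lhs => rw [← discriminant_slash_SL γ]
    exact ModularForm.SL_slash_apply _ γ τ
  rw [h1, h2]
  have h3 : denom γ τ ^ (-(12 : ℤ)) ≠ 0 := zpow_ne_zero _ (denom_ne_zero _ τ)
  rw [mul_div_mul_right _ _ h3]

theorem uM_ne_zero (M : GL (Fin 2) ℝ) (τ : ℍ) : uM M τ ≠ 0 := by
  unfold uM
  refine div_ne_zero ?_ (ModularForm.discriminant_ne_zero τ)
  rw [ModularForm.slash_apply]
  refine mul_ne_zero (mul_ne_zero ?_ ?_) (zpow_ne_zero _ (denom_ne_zero _ τ))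
  · simpa using ModularForm.discriminant_ne_zero (M • τ)
  · apply zpow_ne_zero
    have : M.det.val ≠ 0 := M.det.ne_zero
    simpa using this

theorem jM_utGL (α δ : ℕ) (β : ℤ) (hα : 0 < α) (hδ : 0 < δ) :
    jM (utGL α δ β hα hδ) = jFun ∘ utMap α δ β hα hδ := by
  ext τ
  simp only [jM, utGL_smul, Function.comp_apply]

theorem uM_utGL (α δ : ℕ) (β : ℤ) (hα : 0 < α) (hδ : 0 < δ) (τ : ℍ) :
    uM (utGL α δ β hα hδ) τ =
      ((α : ℂ) * δ) ^ 11 * ((δ : ℂ) ^ 12)⁻¹ * ModularForm.discriminant (utMap α δ β hα hδ τ) *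
        (ModularForm.discriminant τ)⁻¹ := by
  unfold uM
  rw [ModularForm.slash_apply, utGL_smul, utGL_det]
  have h1 : σ (utGL α δ β hα hδ) = ContinuousAlgEquiv.refl ℝ ℂ := by
    rw [σ, if_pos (utGL_det_pos α δ β hα hδ)]
  have h2 : denom (utGL α δ β hα hδ) τ = δ := by
    simp [denom, utGL_val]
  have h3 : |(α : ℝ) * δ| = (α : ℝ) * δ := abs_of_pos (by positivity)
  rw [h1, h2, h3]
  have h4 : ((12 : ℤ) - 1) = ((11 : ℕ) : ℤ) := by norm_num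
  have h5 : (-(12 : ℤ)) = -((12 : ℕ) : ℤ) := by norm_num
  rw [h4, h5, zpow_natCast, zpow_neg, zpow_natCast, div_eq_mul_inv]
  simp only [ContinuousAlgEquiv.refl_apply]
  push_cast
  ring

end Fermat.Agent.S28.DG
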